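import Fermat.Agent.Pts.Main
import Fermat.Agent.S13lib.Node

set_option autoImplicit false
set_option linter.style.haveILetI false
set_option linter.unusedSectionVars false

/-!
# The decomposition group acts by `±1` on a non-canonical Galois stable line
-/

namespace Fermat.Agent.FreyC

open WeierstrassCurve WeierstrassCurve.Affine WeierstrassCurve.Affine.Point
open Fermat.Agent.EC Fermat.Agent.DivPoly Fermat.Agent.Pts

local notation "Qb" => AlgebraicClosure ℚ

section Unique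

variable {F : Type*} [Field F] {Γ : Type*} [LinearOrderedCommGroupWithZero Γ]
  {v : Valuation F Γ} {W : Affine F}

/-- The recentering is unique. -/
theorem node_unique {x0 B G β x0' B' G' β' : F} (h : Node v W x0 B G β)
    (h' : Node v W x0' B' G' β') : x0' = x0 := by
  by_contra hne
  obtain ⟨t, ht⟩ : ∃ t, t = x0' - x0 := ⟨_, rfl⟩
  have ht0 : t ≠ 0 := by rw [ht]; exact sub_ne_zero.mpr hne
  have e : x0' = x0 + t := by rw [ht]; ring
  have h1 : t * (6 * t + B) = 0 := by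
    have h4 := h'.b4
    rw [e] at h4
    rw [h.hB]
    linear_combination h4 - h.b4
  have h6 : 6 * t = -B := by
    rcases mul_eq_zero.mp h1 with h | h
    · exact absurd h ht0
    · linear_combination h
  have vt : v t ≤ 1 := by
    rw [ht]; exact v_sub_le_one v h'.vx0 h.vx0
  have v6t : v (6 * t) = 1 := by rw [h6, Valuation.map_neg, h.vB]
  have vt1 : v t = 1 := by
    apply le_antisymm vt
    by_contra hcon
    push Not at hcon
    have := v_mul_lt_one v (v_ofNat_le_one v 6) hcon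
    rw [v6t] at this
    exact lt_irrefl _ this
  have v6 : v (6 : F) = 1 := by rwa [map_mul, vt1, mul_one] at v6t
  have v3 : v (3 : F) = 1 := by
    apply le_antisymm (v_ofNat_le_one v 3)
    by_contra hcon
    push Not at hcon
    have h2 : v (2 * 3 : F) < 1 := v_mul_lt_one v (v_ofNat_le_one v 2) hcon
    have e6 : (2 * 3 : F) = 6 := by norm_num
    rw [e6, v6] at h2
    exact lt_irrefl _ h2
  have hβ : β' = β + 3 * G * t - 3 * t ^ 4 := by
    rw [h'.hβ, e, h.hβ, h.hG]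
    have hb4 := h.b4
    have hB := h.hB
    have hB2 : 6 * t = -(W.b₂ + 12 * x0) := by rw [h6, hB]
    linear_combination (3 * t ^ 2) * hb4 + t ^ 3 * hB2
  have v3t4 : v (3 * t ^ 4) = 1 := by rw [map_mul, map_pow, v3, vt1, one_pow, one_mul]
  have hlt : v (β + 3 * G * t) < 1 := by
    refine v_add_lt_one v h.vβ ?_
    refine v_mul_lt_one' v (v_mul_lt_one v (v_ofNat_le_one v 3) (h.vG_le.trans_lt h.vβ)) vt
  have : v β' = 1 := by
    rw [hβ, Valuation.map_sub_eq_of_lt_right, v3t4]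
    rw [v3t4]; exact hlt
  exact absurd h'.vβ (by rw [this]; exact lt_irrefl _)

end Unique

section Decomp

variable {A : ValuationSubring Qb} {W : WeierstrassCurve ℤ} {x0 B G β : Qb}

theorem decomp_fix {σ : Qb ≃ₐ[ℚ] Qb} (hσ : σ ∈ A.decompositionSubgroup ℚ)
    (h : Node A.valuation ((WQ W)⁄Qb) x0 B G β) : σ x0 = x0 := by
  have halg : Algebra.IsAlgebraic ℚ Qb := AlgebraicClosure.isAlgebraic ℚ
  have hv : ∀ x : Qb, A.valuation (σ x) = A.valuation x := fun x =>
    S13lib.decomp_valuation hσ (Algebra.IsAlgebraic.isAlgebraic x)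
  have hb2 : σ ((WQ W)⁄Qb).b₂ = ((WQ W)⁄Qb).b₂ := by
    have e : ((WQ W)⁄Qb).b₂ = algebraMap ℚ Qb (WQ W).b₂ := WeierstrassCurve.map_b₂ _ _
    rw [e]; exact σ.commutes _
  have hb4 : σ ((WQ W)⁄Qb).b₄ = ((WQ W)⁄Qb).b₄ := by
    have e : ((WQ W)⁄Qb).b₄ = algebraMap ℚ Qb (WQ W).b₄ := WeierstrassCurve.map_b₄ _ _
    rw [e]; exact σ.commutes _
  have hb6 : σ ((WQ W)⁄Qb).b₆ = ((WQ W)⁄Qb).b₆ := by
    have e : ((WQ W)⁄Qb).b₆ = algebraMap ℚ Qb (WQ W).b₆ := WeierstrassCurve.map_b₆ _ _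
    rw [e]; exact σ.commutes _
  have hb8 : σ ((WQ W)⁄Qb).b₈ = ((WQ W)⁄Qb).b₈ := by
    have e : ((WQ W)⁄Qb).b₈ = algebraMap ℚ Qb (WQ W).b₈ := WeierstrassCurve.map_b₈ _ _
    rw [e]; exact σ.commutes _
  have h' : Node A.valuation ((WQ W)⁄Qb) (σ x0) (σ B) (σ G) (σ β) := by
    refine ⟨?_, ?_, ?_, ?_, ?_, ?_, ?_, ?_⟩
    · have := congrArg σ h.b4
      simpa only [_root_.map_add, map_mul, map_pow, map_ofNat, hb2, hb4, _root_.map_zero] using this
    · have := congrArg σ h.hB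
      simpa only [_root_.map_add, map_mul, map_pow, map_ofNat, hb2, hb4, _root_.map_zero] using this
    · have := congrArg σ h.hG
      simpa only [_root_.map_add, map_mul, map_pow, map_ofNat, hb2, hb4, hb6, _root_.map_zero] using this
    · have := congrArg σ h.hβ
      simpa only [_root_.map_add, map_mul, map_pow, map_ofNat, hb2, hb4, hb6, hb8,
        _root_.map_zero] using this
    · rw [hv]; exact h.vx0
    · rw [hv]; exact h.vB
    · rw [hv]; exact h.vβ
    · exact (map_ne_zero σ).mpr h.β0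
  exact node_unique h h'

theorem v_Xs_smul {σ : Qb ≃ₐ[ℚ] Qb} (hσ : σ ∈ A.decompositionSubgroup ℚ)
    (h : Node A.valuation ((WQ W)⁄Qb) x0 B G β) (P : ((WQ W)⁄Qb).Point) :
    A.valuation (Xs x0 (σ • P)) = A.valuation (Xs x0 P) := by
  have halg : Algebra.IsAlgebraic ℚ Qb := AlgebraicClosure.isAlgebraic ℚ
  have e : Xs x0 (σ • P) = σ (Xs x0 P) := by
    rw [Xs, Xs, map_sub, decomp_fix hσ h, S13lib.xc_smul]
  rw [e]
  exact S13lib.decomp_valuation hσ (Algebra.IsAlgebraic.isAlgebraic _)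

/-- The decomposition group acts by `±1` on a non-canonical stable line. -/
theorem smul_eq_or_neg {p : ℕ} (hp : p.Prime) (hp2 : p ≠ 2)
    (h : Node A.valuation ((WQ W)⁄Qb) x0 B G β) {Q : ((WQ W)⁄Qb).Point} (hQ : Q ≠ 0)
    (hpQ : p • Q = 0) (hnot : ¬ InE0 A.valuation x0 Q) {σ : Qb ≃ₐ[ℚ] Qb}
    (hσ : σ ∈ A.decompositionSubgroup ℚ) {k : ℕ} (hk : σ • Q = k • Q) :
    σ • Q = Q ∨ σ • Q = -Q := by
  classical
  set v := A.valuation with hv
  have hp1 := hp.one_lt
  have hzero : ∀ n : ℕ, n • Q = 0 ↔ p ∣ n := nsmul_eq_zero_iff_dvd hp hQ hpQ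
  have hnc := not_InE0_imp h hp hQ hpQ hnot
  obtain ⟨k₀, hk₀, hmax⟩ := Finset.exists_max_image (Finset.Icc 1 (p - 1))
    (fun k => v (Xs x0 (k • Q))) ⟨1, Finset.mem_Icc.mpr ⟨le_rfl, by omega⟩⟩
  rw [Finset.mem_Icc] at hk₀
  have hk0 : k₀ • Q ≠ 0 := by
    rw [ne_eq, hzero]
    intro h'
    have := Nat.le_of_dvd (by omega) h'
    omega
  have hmax' : ∀ n : ℕ, n • Q ≠ 0 → v (Xs x0 (n • Q)) ≤ v (Xs x0 (k₀ • Q)) := by
    intro n hn
    rw [nsmul_mod hpQ] at hn ⊢
    refine hmax _ (Finset.mem_Icc.mpr ⟨?_, ?_⟩)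
    · by_contra hlt
      push Not at hlt
      have h0 : n % p = 0 := by omega
      rw [h0, zero_nsmul] at hn
      exact hn rfl
    · have := Nat.mod_lt n (show 0 < p by omega)
      omega
  set P0 := k₀ • Q with hP0
  have h2P : P0 + P0 ≠ 0 := by
    rw [hP0, ← add_nsmul, ne_eq, hzero]
    intro h'
    have h2 : p ∣ 2 * k₀ := by rwa [two_mul]
    rcases hp.dvd_mul.mp h2 with h3 | h3
    · exact hp2 ((Nat.prime_dvd_prime_iff_eq hp Nat.prime_two).mp h3)
    · have := Nat.le_of_dvd (by omega) h3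
      omega
  have hlt : v (Xs x0 P0) < 1 := hnc k₀ hk0
  have hβ : v β ≤ v (Xs x0 P0) ^ 3 := h.le_cube hk0 h2P hlt (by
    rw [hP0, ← add_nsmul]
    apply hmax'
    rw [add_nsmul]; exact h2P)
  -- the conjugate point
  have hσP : σ • P0 = (k * k₀) • Q := by
    rw [mul_nsmul, ← hk]
    exact (Point.map σ.toAlgHom).map_nsmul k₀ Q
  have hσP0 : σ • P0 ≠ 0 := S13lib.smul_ne_zero' hk0
  by_cases h1 : σ • P0 = P0
  · left
    have h3 : k₀ • (σ • Q - Q) = 0 := by
      have : k₀ • (σ • Q) = σ • P0 := ((Point.map σ.toAlgHom).map_nsmul k₀ Q).symm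
      rw [nsmul_sub, this, h1, hP0, sub_self]
    have h4 : p • (σ • Q - Q) = 0 := by
      have : p • (σ • Q) = σ • (p • Q) := ((Point.map σ.toAlgHom).map_nsmul p Q).symm
      rw [nsmul_sub, this, hpQ, sub_zero]; rfl
    by_contra hne
    have h5 := (nsmul_eq_zero_iff_dvd hp (sub_ne_zero.mpr hne) h4 k₀).mp h3
    exact hk0 ((hzero _).mpr h5)
  by_cases h2 : σ • P0 = -P0
  · right
    have h3 : k₀ • (σ • Q + Q) = 0 := by
      have : k₀ • (σ • Q) = σ • P0 := ((Point.map σ.toAlgHom).map_nsmul k₀ Q).symm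
      rw [nsmul_add, this, h2, hP0, neg_add_cancel]
    have h4 : p • (σ • Q + Q) = 0 := by
      have : p • (σ • Q) = σ • (p • Q) := ((Point.map σ.toAlgHom).map_nsmul p Q).symm
      rw [nsmul_add, this, hpQ, add_zero]; rfl
    by_contra hne
    have h6 : σ • Q + Q ≠ 0 := fun h' => hne (eq_neg_of_add_eq_zero_left h')
    have h5 := (nsmul_eq_zero_iff_dvd hp h6 h4 k₀).mp h3
    exact hk0 ((hzero _).mpr h5)
  exfalso
  have hv' : v (Xs x0 (σ • P0)) = v (Xs x0 P0) := v_Xs_smul hσ h P0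
  have key := h.lt_of_ne hk0 hσP0 h1 h2 hlt hv'.le (by
    rw [hσP, hP0, ← add_nsmul]
    apply hmax'
    rw [add_nsmul, ← hσP]
    intro h'
    exact h2 (eq_neg_of_add_eq_zero_right h')) (by
    have e : P0 - σ • P0 = (k₀ + (p - 1) * (k * k₀)) • Q := by
      rw [hσP, hP0, add_nsmul, sub_eq_add_neg]
      congr 1
      have : (k * k₀) • Q + ((p - 1) * (k * k₀)) • Q = 0 := by
        rw [← add_nsmul]
        have : k * k₀ + (p - 1) * (k * k₀) = k * k₀ * p := by
          obtain ⟨r, rfl⟩ : ∃ r, p = r + 1 := ⟨p - 1, by omega⟩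
          rw [Nat.add_sub_cancel]; ring
        rw [this, mul_comm, mul_nsmul, hpQ, nsmul_zero]
      rw [neg_eq_iff_add_eq_zero, this]
    rw [e]
    apply hmax'
    rw [← e]
    intro h'
    exact h1 (sub_eq_zero.mp h').symm) hβ
  rw [hv'] at key
  exact lt_irrefl _ key

end Decomp

end Fermat.Agent.FreyC
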