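import Fermat.Agent.Wiring.FreyModel
import Mathlib

set_option autoImplicit false

/-!
# The size of the `j`-invariant of the Frey curve
-/

namespace Fermat.Agent.FreyC

/-- `|X| ≤ 2 |Y Z|` if `X + Y + Z = 0`. -/
theorem abs_le_two_mul {X Y Z : ℤ} (h : X + Y + Z = 0) (hY : Y ≠ 0) (hZ : Z ≠ 0) :
    |X| ≤ 2 * |Y * Z| := by
  have h1 : X = -(Y + Z) := by linarith
  have h2 : |X| ≤ |Y| + |Z| := by rw [h1, abs_neg]; exact abs_add_le Y Z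
  have h3 : 1 ≤ |Y| := Int.one_le_abs hY
  have h4 : 1 ≤ |Z| := Int.one_le_abs hZ
  rw [abs_mul]
  nlinarith

/-- The two bounds on the prime-to-`p` part and the `p`-part. -/
theorem bounds_aux {X Y Z : ℤ} (h : X + Y + Z = 0) (hX : X ≠ 0) (hY : Y ≠ 0) (hZ : Z ≠ 0)
    {p d s : ℕ} (hp : p.Prime) (hpY : ¬ (p : ℤ) ∣ Y) (hpZ : ¬ (p : ℤ) ∣ Z) (hpd : ¬ p ∣ d)
    (hd : 2 ^ 8 * ((d : ℤ) * (p : ℤ) ^ s) = (X * Y * Z) ^ 2) {m : ℤ}
    (hmX : |X| ≤ m) (hmY : |Y| ≤ m) (hmZ : |Z| ≤ m)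
    (hm : m = |X| ∨ m = |Y| ∨ m = |Z|) :
    (p : ℤ) ^ s ≤ m ^ 2 ∧ m ^ 2 ≤ 2 ^ 10 * (d : ℤ) := by
  have hp' : Prime (p : ℤ) := Nat.prime_iff_prime_int.mp hp
  have hcop : IsCoprime ((p : ℤ) ^ s) ((Y * Z) ^ 2) := by
    apply IsCoprime.pow
    rw [hp'.coprime_iff_not_dvd]
    intro h1
    rcases hp'.dvd_or_dvd h1 with h2 | h2
    · exact hpY h2
    · exact hpZ h2
  constructor
  · have h1 : (p : ℤ) ^ s ∣ X ^ 2 := by
      apply hcop.dvd_of_dvd_mul_right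
      refine ⟨2 ^ 8 * d, ?_⟩
      linear_combination -hd
    have h2 : (p : ℤ) ^ s ≤ X ^ 2 := Int.le_of_dvd (by positivity) h1
    have h3 : X ^ 2 ≤ m ^ 2 := by
      rw [← sq_abs X]
      exact pow_le_pow_left₀ (abs_nonneg _) hmX 2
    exact h2.trans h3
  · have h1 : (Y * Z) ^ 2 ∣ 2 ^ 8 * (d : ℤ) := by
      apply hcop.symm.dvd_of_dvd_mul_right
      refine ⟨X ^ 2, ?_⟩
      linear_combination hd
    have hd0 : d ≠ 0 := by rintro rfl; exact hpd (dvd_zero p)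
    have h2 : (Y * Z) ^ 2 ≤ 2 ^ 8 * (d : ℤ) := Int.le_of_dvd (by positivity) h1
    have h3 : m ≤ 2 * |Y * Z| := by
      have hYZ : 1 ≤ |Y * Z| := Int.one_le_abs (mul_ne_zero hY hZ)
      rcases hm with rfl | rfl | rfl
      · exact abs_le_two_mul h hY hZ
      · have : 1 ≤ |Z| := Int.one_le_abs hZ
        rw [abs_mul]; nlinarith [abs_nonneg Y]
      · have : 1 ≤ |Y| := Int.one_le_abs hY
        rw [abs_mul]; nlinarith [abs_nonneg Z]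
    have h4 : m ^ 2 ≤ (2 * |Y * Z|) ^ 2 := by
      apply pow_le_pow_left₀ _ h3
      exact (abs_nonneg X).trans hmX
    rw [mul_pow, sq_abs] at h4
    linarith

theorem le_disc_aux {X Y Z : ℤ} (h : X + Y + Z = 0) (hX : X ≠ 0) (hY : Y ≠ 0) (hZ : Z ≠ 0)
    {m : ℤ} (hm : m = |X| ∨ m = |Y| ∨ m = |Z|) : m ^ 4 ≤ 4 * (X * Y * Z) ^ 2 := by
  have key : m ^ 2 ≤ 2 * |X * Y * Z| := by
    rcases hm with rfl | rfl | rfl
    · have h1 := abs_le_two_mul h hY hZ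
      calc |X| ^ 2 = |X| * |X| := sq _
        _ ≤ |X| * (2 * |Y * Z|) := by gcongr
        _ = 2 * |X * Y * Z| := by rw [mul_assoc X, abs_mul X]; ring
    · have h1 := abs_le_two_mul (show Y + X + Z = 0 by linarith) hX hZ
      calc |Y| ^ 2 = |Y| * |Y| := sq _
        _ ≤ |Y| * (2 * |X * Z|) := by gcongr
        _ = 2 * |X * Y * Z| := by
          rw [show X * Y * Z = Y * (X * Z) by ring, abs_mul Y]; ring
    · have h1 := abs_le_two_mul (show Z + X + Y = 0 by linarith) hX hY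
      calc |Z| ^ 2 = |Z| * |Z| := sq _
        _ ≤ |Z| * (2 * |X * Y|) := by gcongr
        _ = 2 * |X * Y * Z| := by rw [abs_mul _ Z]; ring
  have h2 : (m ^ 2) ^ 2 ≤ (2 * |X * Y * Z|) ^ 2 := pow_le_pow_left₀ (sq_nonneg m) key 2
  rw [mul_pow, sq_abs] at h2
  calc m ^ 4 = (m ^ 2) ^ 2 := by ring
    _ ≤ _ := h2
    _ = _ := by ring

/-- `p ^ 2 ≤ 2 ^ p` -/
theorem sq_le_two_pow {p : ℕ} (hp : 4 ≤ p) : p ^ 2 ≤ 2 ^ p := by
  induction p, hp using Nat.le_induction with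
  | base => norm_num
  | succ n hn ih =>
    rw [pow_succ 2 n]
    nlinarith

theorem numeric {p : ℕ} (hp : 17 ≤ p) {M : ℝ} (hM : (9 : ℝ) ^ p ≤ M) :
    (2 : ℝ) ^ 200 * (p : ℝ) ^ 12 * M * (2 ^ 15 * M + 2 ^ 200) < (M / 2 ^ 10) ^ (p - 1) := by
  have h8 : (2 : ℝ) ^ (3 * p) ≤ M := by
    refine le_trans ?_ hM
    rw [pow_mul]
    gcongr
    norm_num
  have hM51 : (2 : ℝ) ^ 51 ≤ M := by
    refine le_trans ?_ h8
    exact pow_le_pow_right₀ (by norm_num) (by omega)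
  have hM0 : 0 < M := lt_of_lt_of_le (by positivity) hM51
  have h1 : (2 : ℝ) ^ 15 * M + 2 ^ 200 < 2 ^ 200 * M := by
    have e : (2 : ℝ) ^ 200 * M = 2 ^ 199 * M + 2 ^ 199 * M := by ring
    rw [e]
    have h2 : (2 : ℝ) ^ 15 * M ≤ 2 ^ 199 * M := by gcongr <;> norm_num
    have h3 : (2 : ℝ) ^ 200 < 2 ^ 199 * M := by
      calc (2 : ℝ) ^ 200 < 2 ^ 199 * 2 ^ 51 := by norm_num
        _ ≤ 2 ^ 199 * M := by gcongr
    linarith
  have hp12 : (p : ℝ) ^ 12 ≤ 2 ^ (6 * p) := by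
    have h2 : ((p : ℝ)) ^ 2 ≤ 2 ^ p := by exact_mod_cast sq_le_two_pow (show 4 ≤ p by omega)
    calc (p : ℝ) ^ 12 = ((p : ℝ) ^ 2) ^ 6 := by ring
      _ ≤ (2 ^ p) ^ 6 := by gcongr
      _ = 2 ^ (6 * p) := by rw [← pow_mul, mul_comm]
  obtain ⟨r, rfl⟩ : ∃ r, p = r + 3 := ⟨p - 3, by omega⟩
  have h4 : (2 : ℝ) ^ 200 * 2 ^ 200 * 2 ^ (6 * (r + 3)) * 2 ^ (10 * (r + 2)) ≤ M ^ r := by
    calc (2 : ℝ) ^ 200 * 2 ^ 200 * 2 ^ (6 * (r + 3)) * 2 ^ (10 * (r + 2))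
        = 2 ^ (200 + 200 + 6 * (r + 3) + 10 * (r + 2)) := by rw [pow_add, pow_add, pow_add]
      _ ≤ 2 ^ (3 * (r + 3) * r) := by
          apply pow_le_pow_right₀ (by norm_num)
          nlinarith
      _ = (2 ^ (3 * (r + 3))) ^ r := by rw [pow_mul]
      _ ≤ M ^ r := by gcongr
  have e : r + 3 - 1 = r + 2 := by omega
  rw [e, div_pow, lt_div_iff₀ (by positivity), ← pow_mul]
  have hr : (0 : ℝ) < ((r + 3 : ℕ) : ℝ) ^ 12 := by positivity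
  calc (2 : ℝ) ^ 200 * ((r + 3 : ℕ) : ℝ) ^ 12 * M * (2 ^ 15 * M + 2 ^ 200) * 2 ^ (10 * (r + 2))
      < 2 ^ 200 * ((r + 3 : ℕ) : ℝ) ^ 12 * M * (2 ^ 200 * M) * 2 ^ (10 * (r + 2)) := by
        gcongr
    _ ≤ 2 ^ 200 * 2 ^ (6 * (r + 3)) * M * (2 ^ 200 * M) * 2 ^ (10 * (r + 2)) := by
        gcongr
    _ = (2 ^ 200 * 2 ^ 200 * 2 ^ (6 * (r + 3)) * 2 ^ (10 * (r + 2))) * M ^ 2 := by
        generalize (2 : ℝ) ^ 200 = c
        ring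
    _ ≤ M ^ r * M ^ 2 := by gcongr
    _ = M ^ (r + 2) := by rw [pow_add]

end Fermat.Agent.FreyC
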