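import Fermat.Agent.FreyC.Point
import Fermat.Agent.FreyC.Numer

set_option autoImplicit false
set_option linter.style.haveILetI false
set_option linter.unusedSectionVars false

/-!
# The Frey curve has no cofixed line (`p ≥ 17`), from Mazur's theorem and the height bound
-/

namespace Fermat.Agent.FreyC

open WeierstrassCurve WeierstrassCurve.Affine WeierstrassCurve.Affine.Point
open Fermat.Agent.EC Fermat.Agent.DivPoly Fermat.Agent.Pts AlgebraicCurve ModularCurve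

local notation "Qb" => AlgebraicClosure ℚ

/-- The height theorem **(T-D)**. -/
def HeightStmt : Prop :=
  ∀ (p : ℕ) [Fact p.Prime], 17 ≤ p → ∀ (x : Place Qb (JZ.FN Qb p)) (a : ℚ) (b : Qb),
    (∀ σ : Qb ≃ₐ[ℚ] Qb, arithmeticGalois (modularFunctionFieldFull p) σ • x = x) →
    Red.HasVal x (Cusp.jE Qb p) (a : Qb) → Red.HasVal x (Cusp.jEN Qb p) b →
    (∀ ℓ : ℕ, ℓ.Prime → ℓ ≠ p → ∀ A : ValuationSubring Qb, A.LiesOverPrime ℓ →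
      1 < A.valuation (a : Qb) → A.valuation b = A.valuation (a : Qb) ^ p) →
    ∀ d s : ℕ, a.den = d * p ^ s → ¬ p ∣ d →
      (d : ℝ) ^ (p - 1) ≤ 2 ^ 200 * (p : ℝ) ^ 12 * (p : ℝ) ^ s * (|(a : ℝ)| + 2 ^ 200)

variable (P : FreyPackage)

/-- The `j`-invariant of the Frey curve. -/
noncomputable def jFrey : ℚ := ((P.freyCurveInt.c₄ : ℤ) : ℚ) ^ 3 / ((P.freyCurveInt.Δ : ℤ) : ℚ)

theorem jFrey_coe : ((jFrey P : ℚ) : Qb) = jW P.freyCurveInt := by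
  rw [jFrey, jW]
  push_cast
  rfl

theorem Δ_pos : 0 < P.freyCurveInt.Δ := by
  have h := Wiring.freyCurveInt_Δ P
  have h1 : 0 < (P.a * P.b * P.c) ^ (2 * P.p) := by
    rw [pow_mul]
    exact pow_pos (pow_pos_of_ne_zero_sq P.habc0) _
  rw [← h] at h1
  linarith
where
  pow_pos_of_ne_zero_sq {n : ℤ} (h : n ≠ 0) : 0 < n ^ 2 := by positivity

theorem coprime_c₄_Δ : IsCoprime (P.freyCurveInt.c₄ ^ 3) P.freyCurveInt.Δ := by
  apply IsCoprime.pow_left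
  rw [Int.isCoprime_iff_gcd_eq_one]
  by_contra hne
  obtain ⟨q, hq, hdvd⟩ := Nat.exists_prime_and_dvd hne
  have h1 : (q : ℤ) ∣ P.freyCurveInt.c₄ :=
    (Int.natCast_dvd_natCast.mpr hdvd).trans (Int.gcd_dvd_left _ _)
  have h2 : (q : ℤ) ∣ P.freyCurveInt.Δ :=
    (Int.natCast_dvd_natCast.mpr hdvd).trans (Int.gcd_dvd_right _ _)
  exact Wiring.freyCurveInt_isSemistableModel P q hq h2 h1

theorem jFrey_den : ((jFrey P).den : ℤ) = P.freyCurveInt.Δ := by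
  have h := Rat.den_div_eq_of_coprime (a := P.freyCurveInt.c₄ ^ 3) (Δ_pos P)
    (Int.isCoprime_iff_nat_coprime.mp (coprime_c₄_Δ P))
  rw [jFrey]
  push_cast at h
  exact h

theorem three_le_max : 3 ≤ |P.a| ∨ 3 ≤ |P.b| ∨ 3 ≤ |P.c| := by
  by_contra hcon
  push Not at hcon
  obtain ⟨h1, h2, h3⟩ := hcon
  have hb := Wiring.two_dvd_b P
  have ha := Wiring.a_mod4 P
  have hco : ¬ (2 : ℤ) ∣ P.c := by
    intro h
    have := dvd_gcd hb h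
    rw [P.hgcdbc] at this
    omega
  have ha1 : |P.a| = 1 := by
    rcases abs_cases P.a with ⟨h, _⟩ | ⟨h, _⟩ <;> omega
  have hc1 : |P.c| = 1 := by
    rcases abs_cases P.c with ⟨h, _⟩ | ⟨h, _⟩ <;> omega
  have hb2 : 2 ≤ |P.b| := by
    have := P.hb0
    rcases abs_cases P.b with ⟨h, _⟩ | ⟨h, _⟩ <;> omega
  have h4 : P.b ^ P.p = P.c ^ P.p - P.a ^ P.p := by linarith [P.hFLT]
  have h5 : |P.b| ^ P.p ≤ 2 := by
    rw [← abs_pow, h4]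
    calc |P.c ^ P.p - P.a ^ P.p| ≤ |P.c ^ P.p| + |P.a ^ P.p| := abs_sub _ _
      _ = 2 := by rw [abs_pow, abs_pow, ha1, hc1, one_pow]; norm_num
  have h6 : (2 : ℤ) ^ P.p ≤ |P.b| ^ P.p := pow_le_pow_left₀ (by norm_num) hb2 _
  have h7 : (2 : ℤ) ^ 5 ≤ 2 ^ P.p := pow_le_pow_right₀ (by norm_num) P.hp5
  norm_num at h7
  linarith

theorem max_cases {x y z : ℤ} : max (max x y) z = x ∨ max (max x y) z = y ∨
    max (max x y) z = z := by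
  rcases max_choice (max x y) z with h | h
  · rw [h]
    rcases max_choice x y with h' | h' <;> simp [h']
  · right; right; exact h

theorem c4_aux {X Y m : ℤ} (hmX : |X| ≤ m) (hmY : |Y| ≤ m) :
    |X ^ 2 + X * Y + Y ^ 2| ≤ 3 * m ^ 2 := by
  have hX2 : X ^ 2 ≤ m ^ 2 := by
    rw [← sq_abs X]; exact pow_le_pow_left₀ (abs_nonneg _) hmX 2
  have hY2 : Y ^ 2 ≤ m ^ 2 := by
    rw [← sq_abs Y]; exact pow_le_pow_left₀ (abs_nonneg _) hmY 2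
  rw [abs_le]
  constructor
  · nlinarith [sq_nonneg (X + Y)]
  · nlinarith [sq_nonneg (X - Y)]

theorem j_aux {c D m : ℤ} (hD : 0 < D) (hm0 : 0 < m) (h6 : |c| ≤ 3 * m ^ 2)
    (h5 : m ^ 4 ≤ 2 ^ 10 * D) : |((c : ℚ)) ^ 3 / (D : ℚ)| ≤ 2 ^ 15 * (m : ℚ) ^ 2 := by
  have h7 : |c| ^ 3 ≤ (3 * m ^ 2) ^ 3 := pow_le_pow_left₀ (abs_nonneg _) h6 3
  have hΔq : (0 : ℚ) < (D : ℚ) := by exact_mod_cast hD
  rw [abs_div, abs_of_pos hΔq, div_le_iff₀ hΔq, abs_pow]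
  have h7' : |(c : ℚ)| ^ 3 ≤ (3 * (m : ℚ) ^ 2) ^ 3 := by exact_mod_cast h7
  have h5' : (m : ℚ) ^ 4 ≤ 2 ^ 10 * (D : ℚ) := by exact_mod_cast h5
  have hmq : (0 : ℚ) < m := by exact_mod_cast hm0
  calc |(c : ℚ)| ^ 3 ≤ (3 * (m : ℚ) ^ 2) ^ 3 := h7'
    _ = 27 * (m : ℚ) ^ 2 * (m : ℚ) ^ 4 := by ring
    _ ≤ 27 * (m : ℚ) ^ 2 * (2 ^ 10 * (D : ℚ)) := by gcongr
    _ ≤ 2 ^ 15 * (m : ℚ) ^ 2 * (D : ℚ) := by
      have : (0 : ℚ) ≤ (m : ℚ) ^ 2 * (D : ℚ) := by positivity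
      nlinarith

/-- The numerical data of the Frey curve. -/
theorem frey_sizes {d s : ℕ} (hds : ((jFrey P).den : ℤ) = d * (P.p : ℤ) ^ s)
    (hpd : ¬ P.p ∣ d) :
    ∃ m : ℤ, 3 ^ P.p ≤ m ∧ (P.p : ℤ) ^ s ≤ m ^ 2 ∧ m ^ 2 ≤ 2 ^ 10 * (d : ℤ) ∧
      |(jFrey P : ℚ)| ≤ 2 ^ 15 * (m : ℚ) ^ 2 := by
  have hp := P.pp
  have hp' : Prime (P.p : ℤ) := Nat.prime_iff_prime_int.mp hp
  have hΔ := Wiring.freyCurveInt_Δ P
  have hc4 := Wiring.freyCurveInt_c4 P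
  have hden := jFrey_den P
  obtain ⟨X, hX⟩ : ∃ X, X = P.a ^ P.p := ⟨_, rfl⟩
  obtain ⟨Y, hY⟩ : ∃ Y, Y = P.b ^ P.p := ⟨_, rfl⟩
  obtain ⟨Z, hZ⟩ : ∃ Z, Z = -(P.c ^ P.p) := ⟨_, rfl⟩
  have hsum : X + Y + Z = 0 := by rw [hX, hY, hZ, P.hFLT]; ring
  have hX0 : X ≠ 0 := by rw [hX]; exact pow_ne_zero _ P.ha0
  have hY0 : Y ≠ 0 := by rw [hY]; exact pow_ne_zero _ P.hb0
  have hZ0 : Z ≠ 0 := by rw [hZ]; exact neg_ne_zero.mpr (pow_ne_zero _ P.hc0)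
  have hΔ' : 2 ^ 8 * P.freyCurveInt.Δ = (X * Y * Z) ^ 2 := by
    rw [hΔ, hX, hY, hZ, mul_comm 2 P.p, pow_mul, mul_pow, mul_pow]
    ring
  have hc4' : P.freyCurveInt.c₄ = X ^ 2 + X * Y + Y ^ 2 := by
    rw [hc4, hX, hY]
  obtain ⟨m, hm⟩ : ∃ m, m = max (max |X| |Y|) |Z| := ⟨_, rfl⟩
  have hmX : |X| ≤ m := by rw [hm]; exact (le_max_left _ _).trans (le_max_left _ _)
  have hmY : |Y| ≤ m := by rw [hm]; exact (le_max_right _ _).trans (le_max_left _ _)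
  have hmZ : |Z| ≤ m := by rw [hm]; exact le_max_right _ _
  have hm' : m = |X| ∨ m = |Y| ∨ m = |Z| := by rw [hm]; exact max_cases
  have hm3 : 3 ^ P.p ≤ m := by
    rcases three_le_max P with h | h | h
    · refine le_trans ?_ hmX
      rw [hX, abs_pow]
      exact pow_le_pow_left₀ (by norm_num) h _
    · refine le_trans ?_ hmY
      rw [hY, abs_pow]
      exact pow_le_pow_left₀ (by norm_num) h _
    · refine le_trans ?_ hmZ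
      rw [hZ, abs_neg, abs_pow]
      exact pow_le_pow_left₀ (by norm_num) h _
  have hm0 : 0 < m := lt_of_lt_of_le (by positivity) hm3
  have hd : 2 ^ 8 * ((d : ℤ) * (P.p : ℤ) ^ s) = (X * Y * Z) ^ 2 := by
    rw [← hΔ', ← hden, hds]
  have hdvd : ∀ {n : ℤ}, (P.p : ℤ) ∣ n ^ P.p → (P.p : ℤ) ∣ n := fun h => hp'.dvd_of_dvd_pow h
  have hnab : ¬ ((P.p : ℤ) ∣ P.a ∧ (P.p : ℤ) ∣ P.b) := by
    rintro ⟨h1, h2⟩
    have := dvd_gcd h1 h2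
    rw [P.hgcdab] at this
    exact hp'.not_isUnit (isUnit_of_dvd_one this)
  have hnac : ¬ ((P.p : ℤ) ∣ P.a ∧ (P.p : ℤ) ∣ P.c) := by
    rintro ⟨h1, h2⟩
    have := dvd_gcd h1 h2
    rw [P.hgcdac] at this
    exact hp'.not_isUnit (isUnit_of_dvd_one this)
  have hnbc : ¬ ((P.p : ℤ) ∣ P.b ∧ (P.p : ℤ) ∣ P.c) := by
    rintro ⟨h1, h2⟩
    have := dvd_gcd h1 h2
    rw [P.hgcdbc] at this
    exact hp'.not_isUnit (isUnit_of_dvd_one this)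
  have hXd : (P.p : ℤ) ∣ X → (P.p : ℤ) ∣ P.a := fun h => hdvd (by rwa [hX] at h)
  have hYd : (P.p : ℤ) ∣ Y → (P.p : ℤ) ∣ P.b := fun h => hdvd (by rwa [hY] at h)
  have hZd : (P.p : ℤ) ∣ Z → (P.p : ℤ) ∣ P.c := fun h => hdvd (by rwa [hZ, dvd_neg] at h)
  have hbd : (P.p : ℤ) ^ s ≤ m ^ 2 ∧ m ^ 2 ≤ 2 ^ 10 * (d : ℤ) := by
    by_cases h1 : (P.p : ℤ) ∣ X
    · exact bounds_aux hsum hX0 hY0 hZ0 hp (fun h => hnab ⟨hXd h1, hYd h⟩)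
        (fun h => hnac ⟨hXd h1, hZd h⟩) hpd hd hmX hmY hmZ hm'
    by_cases h2 : (P.p : ℤ) ∣ Y
    · exact bounds_aux (show Y + X + Z = 0 by linarith) hY0 hX0 hZ0 hp h1
        (fun h => hnbc ⟨hYd h2, hZd h⟩) hpd
        (by rw [hd]; ring) hmY hmX hmZ (or_left_comm.mp hm')
    · exact bounds_aux (show Z + X + Y = 0 by linarith) hZ0 hX0 hY0 hp h1 h2 hpd
        (by rw [hd]; ring) hmZ hmX hmY
        (hm'.elim (fun h => Or.inr (Or.inl h)) (fun h => h.elim (fun h => Or.inr (Or.inr h)) Or.inl))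
  refine ⟨m, hm3, hbd.1, hbd.2, ?_⟩
  -- the size of `j`
  have h4 := le_disc_aux hsum hX0 hY0 hZ0 hm'
  rw [← hΔ'] at h4
  have h6 : |P.freyCurveInt.c₄| ≤ 3 * m ^ 2 := by
    rw [hc4']
    exact c4_aux hmX hmY
  exact j_aux (Δ_pos P) hm0 h6 (by linarith)

/-- **(T-E)** The Frey curve has no cofixed line for `p ≥ 17`. -/
theorem frey_no_cofixed (hp : 17 ≤ P.p) (hH : HeightStmt)
    (hCT : ∀ (p : ℕ) [Fact p.Prime], 17 ≤ p → SameCusp p) :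
    ¬ HasGaloisStableCofixedLine (K := Qb) ℚ P.freyCurve P.p := by
  intro hL
  have hF : Fact P.p.Prime := ⟨P.pp⟩
  obtain ⟨x, b, h1, -, h3, h4, h5⟩ := frey_exists_point P (by omega) hL (hCT P.p hp)
  rw [← jFrey_coe] at h3 h5
  have hden := jFrey_den P
  have hval : ∀ ℓ : ℕ, ℓ.Prime → ℓ ≠ P.p → ∀ A : ValuationSubring Qb, A.LiesOverPrime ℓ →
      1 < A.valuation ((jFrey P : ℚ) : Qb) → A.valuation b = A.valuation ((jFrey P : ℚ) : Qb) ^ P.p := by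
    intro ℓ hℓ hℓp A hA hlt
    have hdvd : (ℓ : ℤ) ∣ P.freyCurveInt.Δ := by
      by_contra hcon
      have := jW_le_one hℓ hA hcon
      rw [← jFrey_coe] at this
      exact absurd hlt (not_lt.mpr this)
    exact (h5 ℓ hℓ hℓp hdvd A hA).2
  have hden0 : (jFrey P).den ≠ 0 := (jFrey P).den_ne_zero
  obtain ⟨s, d, hpd, hds⟩ := Nat.exists_eq_pow_mul_and_not_dvd hden0 P.p P.pp.one_lt.ne'
  have hds' : (jFrey P).den = d * P.p ^ s := by rw [hds, mul_comm]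
  have hds'' : ((jFrey P).den : ℤ) = d * (P.p : ℤ) ^ s := by rw [hds']; push_cast; ring
  obtain ⟨m, hm3, hps, hmd, hj⟩ := frey_sizes P hds'' hpd
  have hkey := hH P.p hp x (jFrey P) b h1 h3 h4 hval d s hds' hpd
  have hm3' : (3 : ℝ) ^ P.p ≤ m := by exact_mod_cast hm3
  have hmpos : (0 : ℝ) < m := lt_of_lt_of_le (by positivity) hm3'
  have hM : (9 : ℝ) ^ P.p ≤ (m : ℝ) ^ 2 := by
    calc (9 : ℝ) ^ P.p = (3 ^ P.p) ^ 2 := by rw [← pow_mul, mul_comm, pow_mul]; norm_num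
      _ ≤ (m : ℝ) ^ 2 := by gcongr
  have hnum := numeric hp hM
  have hps' : (P.p : ℝ) ^ s ≤ (m : ℝ) ^ 2 := by exact_mod_cast hps
  have hmd' : (m : ℝ) ^ 2 ≤ 2 ^ 10 * (d : ℝ) := by exact_mod_cast hmd
  have hj' : |((jFrey P : ℚ) : ℝ)| ≤ 2 ^ 15 * (m : ℝ) ^ 2 := by exact_mod_cast hj
  have hd1 : (m : ℝ) ^ 2 / 2 ^ 10 ≤ d := by
    rw [div_le_iff₀ (by positivity)]; linarith
  have h6 : ((m : ℝ) ^ 2 / 2 ^ 10) ^ (P.p - 1) ≤ (d : ℝ) ^ (P.p - 1) := by gcongr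
  have h7 : 2 ^ 200 * (P.p : ℝ) ^ 12 * (P.p : ℝ) ^ s * (|((jFrey P : ℚ) : ℝ)| + 2 ^ 200) ≤
      2 ^ 200 * (P.p : ℝ) ^ 12 * (m : ℝ) ^ 2 * (2 ^ 15 * (m : ℝ) ^ 2 + 2 ^ 200) := by
    gcongr
  exact absurd hnum (not_lt.mpr (h6.trans (hkey.trans h7)))

end Fermat.Agent.FreyC
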