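import Fermat.Agent.FreyC.Decomp
import Fermat.Agent.ECRep.Odd
import Fermat.Agent.CycChar.Basic
import Fermat.Prelude.Def_FLTPrelim_CofixedLine
import Fermat.Agent.Wiring.FreyModel

set_option autoImplicit false
set_option linter.style.haveILetI false
set_option linter.unusedSectionVars false

/-!
# Cofixed lines: the action on the line, and consequences at small primes
-/

namespace Fermat.Agent.FreyC

open WeierstrassCurve WeierstrassCurve.Affine WeierstrassCurve.Affine.Point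
open Fermat.Agent.EC Fermat.Agent.DivPoly Fermat.Agent.Pts

local notation "Qb" => AlgebraicClosure ℚ
local notation "Γℚ" => (AlgebraicClosure ℚ ≃ₐ[ℚ] AlgebraicClosure ℚ)

section LinAlg

variable {k V : Type*} [Field k] [AddCommGroup V] [Module k V]

/-- On a line with trivial action on the quotient, `f` acts by its determinant. -/
theorem smul_of_cofixed [Module.Finite k V] (N : Submodule k V) (hN : Module.finrank k N = 1)
    (f : V →ₗ[k] V) (h : ∀ x, f x - x ∈ N) (x : V) (hx : x ∈ N) :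
    f x = LinearMap.det f • x := by
  have hle : N ≤ N.comap f := fun y hy => by
    rw [Submodule.mem_comap]
    have : f y = (f y - y) + y := by abel
    rw [this]; exact N.add_mem (h y) hy
  have hdet := LinearMap.det_eq_det_mul_det N f hle
  have hq : N.mapQ N f hle = LinearMap.id := by
    apply LinearMap.ext
    intro y
    obtain ⟨y, rfl⟩ := N.mkQ_surjective y
    rw [Submodule.mkQ_apply, Submodule.mapQ_apply, LinearMap.id_apply]
    exact (Submodule.Quotient.eq N).mpr (h y)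
  rw [hq, LinearMap.det_id, mul_one] at hdet
  obtain ⟨c, hc⟩ : ∃ c : k, f.restrict hle = c • LinearMap.id := by
    obtain ⟨v, hv, hspan⟩ := finrank_eq_one_iff'.mp hN
    obtain ⟨c, hc⟩ := hspan (f.restrict hle v)
    refine ⟨c, LinearMap.ext fun w => ?_⟩
    obtain ⟨d, rfl⟩ := hspan w
    rw [map_smul, ← hc, LinearMap.smul_apply, LinearMap.id_apply, smul_comm]
  have hdet2 : LinearMap.det f = c := by
    rw [hdet, hc, LinearMap.det_smul, hN, pow_one, LinearMap.det_id, mul_one]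
  have h1 := LinearMap.congr_fun hc ⟨x, hx⟩
  have h2 := congrArg Subtype.val h1
  rw [hdet2]
  exact h2

end LinAlg

/-- A line in `W[p]` with trivial Galois action on the quotient, in terms of a generator. -/
structure CofixedGen (W : WeierstrassCurve ℤ) (p : ℕ) (Q : ((WQ W)⁄Qb).Point) : Prop where
  ne : Q ≠ 0
  tor : p • Q = 0
  cyc : ∀ (σ : Γℚ) (a : ℕ), (∀ μ : Qb, μ ^ p = 1 → σ μ = μ ^ a) → σ • Q = a • Q
  cof : ∃ R : ((WQ W)⁄Qb).Point, p • R = 0 ∧ (∀ m : ℕ, (∃ k : ℕ, m • R = k • Q) → p ∣ m) ∧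
    ∀ σ : Γℚ, ∃ k : ℕ, σ • R - R = k • Q

theorem exists_cofixedGen (W : WeierstrassCurve ℤ) (hΔ : W.Δ ≠ 0) (p : ℕ) [hpF : Fact p.Prime]
    (h : HasGaloisStableCofixedLine (K := Qb) ℚ (WQ W) p) :
    ∃ Q : ((WQ W)⁄Qb).Point, CofixedGen W p Q := by
  obtain ⟨N, hst, hbot, htop, hcof⟩ := h
  have hp := hpF.out
  have hΔK : ((WQ W)⁄Qb).Δ ≠ 0 := by
    rw [wq_Δ]; exact_mod_cast hΔ
  have hN1 := (natCard_submodule _ hΔK p N hbot htop).1
  have hfin : Finite (Submodule.torsionBy ℤ ((WQ W)⁄Qb).Point (p : ℤ)) :=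
    finite_torsionBy_baseChange _ hΔK p hp.ne_zero
  have hmf : Module.Finite (ZMod p) (Submodule.torsionBy ℤ ((WQ W)⁄Qb).Point (p : ℤ)) :=
    Module.Finite.of_finite
  obtain ⟨x0, hx0, hx0'⟩ := Submodule.exists_mem_ne_zero_of_ne_bot hbot
  obtain ⟨y0, hy0⟩ : ∃ y, y ∉ N := by
    by_contra hcon
    push Not at hcon
    exact htop (eq_top_iff.mpr fun y _ => hcon y)
  have hcoe : ∀ (c : ZMod p) (x : Submodule.torsionBy ℤ ((WQ W)⁄Qb).Point (p : ℤ)),
      (c • x).1 = c.val • x.1 := by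
    intro c x
    have : c • x = c.val • x := by
      conv_lhs => rw [← ZMod.natCast_zmod_val c]
      rw [Nat.cast_smul_eq_nsmul]
    rw [this]; rfl
  have hspan : ∀ x ∈ N, ∃ k : ℕ, x.1 = k • x0.1 := by
    intro x hx
    have hx0n : (⟨x0, hx0⟩ : N) ≠ 0 := fun h => hx0' (congrArg Subtype.val h)
    obtain ⟨c, hc⟩ := (finrank_eq_one_iff_of_nonzero' (⟨x0, hx0⟩ : N) hx0n).mp hN1 ⟨x, hx⟩
    refine ⟨c.val, ?_⟩
    rw [← hcoe]
    exact congrArg Subtype.val (congrArg Subtype.val hc).symm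
  refine ⟨x0.1, ⟨fun h => hx0' (Subtype.ext h), ?_, ?_, ?_⟩⟩
  · have := (Submodule.mem_torsionBy_iff _ _).mp x0.2
    rwa [natCast_zsmul] at this
  · intro σ a ha
    let f : Submodule.torsionBy ℤ ((WQ W)⁄Qb).Point (p : ℤ) →ₗ[ZMod p]
        Submodule.torsionBy ℤ ((WQ W)⁄Qb).Point (p : ℤ) :=
      (ECRep.resRep (ECRep.toRat W) p (ECRep.toRat_Δ_ne_zero hΔ)).ρ σ
    have hf : ∀ x, f x = σ • x := fun x => rfl
    have h1 := smul_of_cofixed N hN1 f (fun x => hcof σ x) x0 hx0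
    have h2 : LinearMap.det f = (a : ZMod p) := ECRep.det_resRep_eq W p hΔ σ a ha
    rw [h2, hf, Nat.cast_smul_eq_nsmul] at h1
    exact congrArg Subtype.val h1
  · refine ⟨y0.1, ?_, ?_, ?_⟩
    · have := (Submodule.mem_torsionBy_iff _ _).mp y0.2
      rwa [natCast_zsmul] at this
    · rintro m ⟨k, hk⟩
      by_contra hm
      apply hy0
      have h1 : m • y0 = k • x0 := Subtype.ext hk
      have h2 : (m : ZMod p) ≠ 0 := by
        rw [ne_eq, ZMod.natCast_eq_zero_iff]; exact hm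
      have h3 : (m : ZMod p) • y0 ∈ N := by
        rw [Nat.cast_smul_eq_nsmul, h1]
        exact N.nsmul_mem hx0 k
      exact (Submodule.smul_mem_iff N h2).mp h3
    · intro σ
      obtain ⟨k, hk⟩ := hspan _ (hcof σ y0)
      exact ⟨k, hk⟩

namespace CofixedGen

variable {W : WeierstrassCurve ℤ} {p : ℕ} {Q : ((WQ W)⁄Qb).Point}

theorem stable (hp : p.Prime) (h : CofixedGen W p Q) (σ : Γℚ) : ∃ k : ℕ, σ • Q = k • Q := by
  have : Fact p.Prime := ⟨hp⟩
  exact ⟨_, h.cyc σ _ fun μ hμ => CycChar.apply_eq_pow_cycloChar p σ hμ⟩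

/-- At a place of multiplicative reduction above `ℓ`, `ℓ ^ 2 ≢ 1`, the line is canonical. -/
theorem inZero (hp : p.Prime) (hp2 : p ≠ 2) (h : CofixedGen W p Q) (hΔ : W.Δ ≠ 0) {ℓ : ℕ}
    (hℓ : ℓ.Prime) (hℓp : ℓ ≠ p) (hℓΔ : (ℓ : ℤ) ∣ W.Δ) (hℓc : ¬ (ℓ : ℤ) ∣ W.c₄)
    (h1 : ¬ p ∣ ℓ - 1) (h2 : ¬ p ∣ ℓ + 1) {A : ValuationSubring Qb} (hA : A.LiesOverPrime ℓ) :
    W.InZeroComponentAt A Q := by
  have hint := integralFor W A
  have hΔK : ((WQ W)⁄Qb).Δ ≠ 0 := by
    rw [wq_Δ]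
    exact_mod_cast hΔ
  obtain ⟨x0, B, G, β, hn⟩ := exists_node hint
    (by rw [wq_c₄]; exact v_int_eq_one hℓ hA hℓc)
    (by rw [wq_Δ]; exact v_int_lt_one hA hℓΔ) hΔK
  rw [inZeroComponentAt_iff hn]
  by_contra hnot
  have hgal : IsGalois ℚ Qb := inferInstance
  obtain ⟨φ, hφ⟩ := Frob.exists_isFrobeniusAt A hℓ hA
  have hℓdvd : ¬ ℓ ∣ p := fun hd => hℓp ((Nat.prime_dvd_prime_iff_eq hℓ hp).mp hd)
  have hφQ : φ • Q = ℓ • Q := h.cyc φ ℓ fun μ hμ => Cheb.frob_rootOfUnity hℓ hA hφ hℓdvd hμ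
  have hzero : ∀ n : ℕ, n • Q = 0 ↔ p ∣ n := nsmul_eq_zero_iff_dvd hp h.ne h.tor
  rcases smul_eq_or_neg hp hp2 hn h.ne h.tor hnot hφ.mem_decompositionSubgroup hφQ with h3 | h3
  · apply h1
    rw [← hzero]
    have : (ℓ - 1) • Q + Q = Q := by
      rw [← succ_nsmul, Nat.sub_add_cancel hℓ.one_lt.le, ← hφQ, h3]
    exact add_eq_right.mp this
  · apply h2
    rw [← hzero, succ_nsmul, ← hφQ, h3, neg_add_cancel]

/-- `3` is a bad prime if `p ≥ 11`. -/
theorem three_dvd (hp : p.Prime) (hp11 : 11 ≤ p) (h : CofixedGen W p Q) : (3 : ℤ) ∣ W.Δ := by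
  by_contra hcon
  have hgal : IsGalois ℚ Qb := inferInstance
  obtain ⟨A, hA⟩ := Frob.exists_liesOverPrime Qb Nat.prime_three
  obtain ⟨φ, hφ⟩ := Frob.exists_isFrobeniusAt A Nat.prime_three hA
  obtain ⟨R, hR, hmem, hcof⟩ := h.cof
  have hg : W.IsGoodPrimeFor 3 := by
    intro h'
    exact hcon (by exact_mod_cast h')
  have hrel := ECRep.frob_rel_torsion W Nat.prime_three (by norm_num) hA hg hφ (n := p)
    (fun hd => by
      have := (Nat.prime_dvd_prime_iff_eq Nat.prime_three hp).mp hd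
      omega) hR
  have hH := ECRep.hasse_ap W Nat.prime_three (by norm_num) hg
  obtain ⟨a, ha⟩ : ∃ a, a = W.apOfModel 3 := ⟨_, rfl⟩
  rw [← ha] at hrel hH
  have ha3 : |a| ≤ 3 := by
    by_contra hlt
    push Not at hlt
    have : 16 ≤ a ^ 2 := by
      rw [← sq_abs]; nlinarith
    push_cast at hH
    linarith
  rw [abs_le] at ha3
  -- the action on the line and on `R`
  obtain ⟨k, hk⟩ := hcof φ
  obtain ⟨m, hm⟩ := h.stable hp φ
  have hφR : φ • R = R + k • Q := by rw [← hk]; abel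
  have hφφR : φ • (φ • R) = R + k • Q + (k * m) • Q := by
    rw [hφR]
    have : φ • (R + k • Q) = φ • R + k • (φ • Q) := by
      rw [show φ • (R + k • Q) = φ • R + φ • (k • Q) from
        (Point.map φ.toAlgHom).map_add R (k • Q)]
      congr 1
      exact (Point.map φ.toAlgHom).map_nsmul k Q
    rw [this, hφR, hm, ← mul_nsmul, mul_comm m k]
  rw [hφφR, hφR] at hrel
  obtain ⟨b, hb⟩ : ∃ b : ℤ, b = k + k * m - a * k := ⟨_, rfl⟩
  have h4 : (2 * (4 - a)) • R = -(2 * b) • Q := by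
    have e : (2 : ℤ) • (R + k • Q + (k * m) • Q - a • (R + k • Q) + ((3 : ℕ) : ℤ) • R) =
        (2 * (4 - a)) • R + (2 * b) • Q := by
      rw [hb, ← natCast_zsmul Q k, ← natCast_zsmul Q (k * m)]
      push_cast
      module
    rw [e] at hrel
    rw [neg_smul]
    exact eq_neg_of_add_eq_zero_left hrel
  -- pass to natural numbers
  obtain ⟨n, hn⟩ : ∃ n : ℕ, (n : ℤ) = 2 * (4 - a) := ⟨(2 * (4 - a)).toNat, by
    rw [Int.toNat_of_nonneg]; linarith [ha3.2]⟩
  obtain ⟨c, hc⟩ : ∃ c : ℕ, -(2 * b) • Q = c • Q := by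
    refine ⟨((-(2 * b)) % (p : ℤ)).toNat, ?_⟩
    have hp0 : (p : ℤ) ≠ 0 := by exact_mod_cast hp.ne_zero
    rw [← natCast_zsmul, Int.toNat_of_nonneg (Int.emod_nonneg _ hp0)]
    have h5 := Int.emod_add_mul_ediv (-(2 * b)) (p : ℤ)
    conv_lhs => rw [← h5]
    have h51 : ((p : ℤ) * (-(2 * b) / (p : ℤ))) • Q = 0 := by
      rw [mul_comm, mul_smul, natCast_zsmul, h.tor]
      exact zsmul_zero _
    rw [add_zsmul, h51, add_zero]
  have h6 : p ∣ n := hmem n ⟨c, by rw [← hc, ← h4, ← hn, natCast_zsmul]⟩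
  have h7 : 0 < n := by
    have : (0 : ℤ) < n := by rw [hn]; linarith [ha3.2]
    exact_mod_cast this
  have h8 : n ≤ 14 := by
    have : (n : ℤ) ≤ 14 := by rw [hn]; linarith [ha3.1]
    exact_mod_cast this
  have h9 : 2 ∣ n := by
    have : (2 : ℤ) ∣ n := ⟨4 - a, hn⟩
    exact_mod_cast this
  obtain ⟨r, rfl⟩ := h9
  have hp2 : ¬ p ∣ 2 := fun hd => by
    have := Nat.le_of_dvd (by norm_num) hd
    omega
  have h10 := (hp.dvd_mul.mp h6).resolve_left hp2
  have := Nat.le_of_dvd (by omega) h10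
  omega

end CofixedGen

end Fermat.Agent.FreyC
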