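import Fermat.Agent.FreyC.Line
import Fermat.Agent.Cusp.Fricke
import Fermat.Agent.Red.Eval

set_option autoImplicit false
set_option linter.style.haveILetI false
set_option linter.unusedSectionVars false

/-!
# The rational point of `X_0(p)` attached to a Frey curve with a cofixed line
-/

namespace Fermat.Agent.FreyC

open WeierstrassCurve WeierstrassCurve.Affine WeierstrassCurve.Affine.Point
open Fermat.Agent.EC Fermat.Agent.DivPoly Fermat.Agent.Pts AlgebraicCurve ModularCurve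

local notation "Qb" => AlgebraicClosure ℚ

/-- The output of Mazur's theorem used below (for the second component): a rational point of
`X_0(p)` which reduces to the cusp `0` (in the sense `|j_p / j| > 1`) at `2` and `3` does so at
every place of multiplicative reduction away from `p`. -/
def SameCusp (p : ℕ) [Fact p.Prime] : Prop :=
  ∀ (x : Place Qb (JZ.FN Qb p)) (a b : Qb),
    (∀ σ : Qb ≃ₐ[ℚ] Qb, arithmeticGalois (modularFunctionFieldFull p) σ • x = x) →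
    Red.HasVal x (Cusp.jE Qb p) a → Red.HasVal x (Cusp.jEN Qb p) b →
    (∀ ℓ : ℕ, ℓ = 2 ∨ ℓ = 3 → ∀ A : ValuationSubring Qb, A.LiesOverPrime ℓ →
      a ∉ A ∧ b / a ∉ A) →
    ∀ ℓ : ℕ, ℓ.Prime → ℓ ≠ p → ∀ A : ValuationSubring Qb, A.LiesOverPrime ℓ →
      a ∉ A → b / a ∉ A

theorem hasVal_of_over {K F : Type*} [Field K] [Field F] [Algebra K F] [IsAlgClosed K]
    [FF.IsFnField K F] {x : Place K F} {f : F} {a : K} (h : Over x f a) : Red.HasVal x f a :=
  Red.hasVal_iff.mpr (over_iff.mp h)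

section General

variable {W : WeierstrassCurve ℤ} {p : ℕ} [hpF : Fact p.Prime]
  {Q : ((WQ W)⁄Qb).Point}

omit hpF in
theorem jW_le_one {ℓ : ℕ} (hℓ : ℓ.Prime) {A : ValuationSubring Qb}
    (hA : A.LiesOverPrime ℓ) (h : ¬ (ℓ : ℤ) ∣ W.Δ) : A.valuation (jW W) ≤ 1 := by
  rw [jW, map_div₀, v_int_eq_one hℓ hA h, div_one, map_pow]
  exact pow_le_one₀ zero_le (v_intCast_le_one _ _)

theorem exists_point (hΔ : W.Δ ≠ 0) (hss : W.IsSemistableModel) (h2 : (2 : ℤ) ∣ W.Δ)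
    (hp : 11 ≤ p) (hQ : CofixedGen W p Q) (hCT : SameCusp p) :
    ∃ (x : Place Qb (JZ.FN Qb p)) (b : Qb),
      (∀ σ : Qb ≃ₐ[ℚ] Qb, arithmeticGalois (modularFunctionFieldFull p) σ • x = x) ∧
      (∀ σ : Qb ≃ₐ[ℚ] Qb, σ b = b) ∧
      Red.HasVal x (Cusp.jE Qb p) (jW W) ∧ Red.HasVal x (Cusp.jEN Qb p) b ∧
      ∀ ℓ : ℕ, ℓ.Prime → ℓ ≠ p → (ℓ : ℤ) ∣ W.Δ → ∀ A : ValuationSubring Qb,
        A.LiesOverPrime ℓ → 1 < A.valuation (jW W) ∧
          A.valuation b = A.valuation (jW W) ^ p := by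
  have hpp := hpF.out
  have halg : Algebra.IsAlgebraic ℚ Qb := AlgebraicClosure.isAlgebraic ℚ
  let hC : Algebra Qb ℂ :=
    (IsAlgClosed.lift (R := ℚ) (S := Qb) (M := ℂ)).toRingHom.toAlgebra
  have h2' : ((2 : ℕ) : ℤ) ∣ W.Δ := h2
  have h3' : ((3 : ℕ) : ℤ) ∣ W.Δ := hQ.three_dvd hpp hp
  have h2c : ¬ ((2 : ℕ) : ℤ) ∣ W.c₄ := hss 2 Nat.prime_two h2'
  have h3c : ¬ ((3 : ℕ) : ℤ) ∣ W.c₄ := hss 3 Nat.prime_three h3'
  obtain ⟨x, b, h1, hb, ha, hb', h5⟩ := exists_place_of_line' (p := p) (by omega) hΔ Q hQ.ne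
    hQ.tor (fun σ => by
      obtain ⟨k, hk⟩ := hQ.stable hpp σ
      exact ⟨k, by rw [hk, natCast_zsmul]⟩) Nat.prime_two h2' h2c
  have va : Red.HasVal x (Cusp.jE Qb p) (jW W) := by
    have e : (Cusp.jE Qb p : JZ.FN Qb p) = jF Qb p :=
      Subtype.ext (ModFn.coeffMap_jqModC (algebraMap ℚ Qb))
    rw [e]; exact hasVal_of_over ha
  have vb : Red.HasVal x (Cusp.jEN Qb p) b := by
    have e : (Cusp.jEN Qb p : JZ.FN Qb p) = jpF Qb p :=
      Subtype.ext (by
        rw [Cusp.coe_jEN, show coeffEmb Qb jq = jqModC Qb from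
          ModFn.coeffMap_jqModC (algebraMap ℚ Qb)]
        rfl)
    rw [e]; exact hasVal_of_over hb'
  have hp1 : p - 1 ≠ 0 := by omega
  have hratio : ∀ A : ValuationSubring Qb, 1 < A.valuation (jW W) →
      A.valuation b = A.valuation (jW W) ^ p → b / jW W ∉ A := by
    intro A hj hbj
    rw [← ValuationSubring.valuation_le_one_iff, map_div₀, hbj, not_le]
    have h0 : A.valuation (jW W) ≠ 0 := (zero_lt_one.trans hj).ne'
    obtain ⟨r, hr⟩ : ∃ r, p = r + 1 := ⟨p - 1, by omega⟩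
    rw [hr, pow_succ, mul_div_assoc, div_self h0, mul_one]
    exact one_lt_pow₀ hj (by omega)
  have h23 : ∀ ℓ : ℕ, ℓ = 2 ∨ ℓ = 3 → ∀ A : ValuationSubring Qb, A.LiesOverPrime ℓ →
      jW W ∉ A ∧ b / jW W ∉ A := by
    rintro ℓ hℓ A hA
    have hprime : ℓ.Prime := by rcases hℓ with rfl | rfl <;> norm_num
    have hne : ℓ ≠ p := by rcases hℓ with rfl | rfl <;> omega
    have hd : (ℓ : ℤ) ∣ W.Δ := by rcases hℓ with rfl | rfl <;> assumption
    have hc : ¬ (ℓ : ℤ) ∣ W.c₄ := by rcases hℓ with rfl | rfl <;> assumption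
    have hz := hQ.inZero hpp (by omega) hΔ hprime hne hd hc
      (fun hd' => by
        have := Nat.le_of_dvd (by rcases hℓ with rfl | rfl <;> norm_num) hd'
        rcases hℓ with rfl | rfl <;> omega)
      (fun hd' => by
        have := Nat.le_of_dvd (by rcases hℓ with rfl | rfl <;> norm_num) hd'
        rcases hℓ with rfl | rfl <;> omega) hA
    obtain ⟨g1, g2, -⟩ := h5 ℓ hprime hne hd hc A hA
    refine ⟨?_, hratio A g1 (g2 hz)⟩
    rw [← ValuationSubring.valuation_le_one_iff, not_le]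
    exact g1
  refine ⟨x, b, h1, hb, va, vb, fun ℓ hℓ hℓp hℓΔ A hA => ?_⟩
  obtain ⟨g1, g2, g3⟩ := h5 ℓ hℓ hℓp hℓΔ (hss ℓ hℓ hℓΔ) A hA
  refine ⟨g1, ?_⟩
  by_cases hz : W.InZeroComponentAt A Q
  · exact g2 hz
  · exfalso
    have g4 := g3 hz
    have g5 := hCT x (jW W) b h1 va vb h23 ℓ hℓ hℓp A hA (by
      rw [← ValuationSubring.valuation_le_one_iff, not_le]
      exact g1)
    apply g5
    rw [← ValuationSubring.valuation_le_one_iff, map_div₀,
      div_le_one₀ (zero_lt_one.trans g1)]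
    by_contra hlt
    push Not at hlt
    have hb1 : 1 < A.valuation b := g1.trans hlt
    have : A.valuation b ≤ A.valuation b ^ p := le_self_pow₀ hb1.le hpp.ne_zero
    rw [g4] at this
    exact absurd hlt (not_lt.mpr this)

end General

/-- **(T-C)** The rational point of `X_0(p)` attached to a Frey curve with a cofixed line. -/
theorem frey_exists_point (P : FreyPackage) (hp : 11 ≤ P.p) [Fact P.p.Prime]
    (hL : HasGaloisStableCofixedLine (K := Qb) ℚ P.freyCurve P.p) (hCT : SameCusp P.p) :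
    ∃ (x : Place Qb (JZ.FN Qb P.p)) (b : Qb),
      (∀ σ : Qb ≃ₐ[ℚ] Qb, arithmeticGalois (modularFunctionFieldFull P.p) σ • x = x) ∧
      (∀ σ : Qb ≃ₐ[ℚ] Qb, σ b = b) ∧
      Red.HasVal x (Cusp.jE Qb P.p) (jW P.freyCurveInt) ∧ Red.HasVal x (Cusp.jEN Qb P.p) b ∧
      ∀ ℓ : ℕ, ℓ.Prime → ℓ ≠ P.p → (ℓ : ℤ) ∣ P.freyCurveInt.Δ → ∀ A : ValuationSubring Qb,
        A.LiesOverPrime ℓ → 1 < A.valuation (jW P.freyCurveInt) ∧
          A.valuation b = A.valuation (jW P.freyCurveInt) ^ P.p := by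
  have hΔ := Wiring.freyCurveInt_Δ_ne_zero P
  rw [← Wiring.freyCurveInt_map] at hL
  obtain ⟨Q, hQ⟩ := exists_cofixedGen P.freyCurveInt hΔ P.p hL
  exact exists_point hΔ (Wiring.freyCurveInt_isSemistableModel P)
    (Wiring.two_dvd_freyCurveInt_Δ P) hp hQ hCT

end Fermat.Agent.FreyC
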